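/-
helper34: P-SS2 row 1054 (SS2-J3 PER-NEW): the period class of a newform is new
(`Fermat.Agent.H52.SS.PeriodNewStatement`), from (J1) `PushParabolicStatement` and
(J2) `PushCohTStatement`.

`ω = per(g, g)` at level `N q`; `ψ = cor ω` at level `N` is parabolic (J1), hence
`ψ = per_N(f, f')` (Eichler-Shimura at level `N`); `T_ℓ ψ = a_ℓ(g) ψ` for `ℓ ∤ N q` (J2 and the
Hecke equivariance of the period map), so `T_ℓ f = a_ℓ(g) f`, `T_ℓ f' = a_ℓ(g) f'`; a nonzero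
such `f` gives a normalised eigenform of level `N` with the eigenvalues `a_ℓ(g)`, `ℓ ∤ N q`
(after passing to an eigenvector of `T_q` in the joint eigenspace if `q ∤ N`), contradicting
`IsNewform`.
-/
import Fermat.Agent.H52.SS.JInterfaces
import Fermat.Agent.H97.ParabolicPeriod
import Fermat.Agent.H21.EsC.Period
import Fermat.Agent.H50.EsC.Eigen
import Fermat.Agent.H74.NormalizedEigenform

set_option autoImplicit false
set_option linter.style.haveILetI false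
set_option linter.unusedSectionVars false

noncomputable section

namespace Fermat.Agent.H34.SS2J

open ModularCurve CongruenceSubgroup ModularCurve.Period
open Fermat.Agent.H63.LR Fermat.Agent.H52.SS

/-! ### The transfer is `ℂ`-linear -/

/-- Scalar multiplication on `Hom(Γ, ℂ)` is post-composition with the multiplication. -/
theorem smul_eq_mulLeft_comp {Γ : Type*} [Group Γ] (c : ℂ) (ψ : Additive Γ →+ ℂ) :
    c • ψ = (AddMonoidHom.mulLeft c).comp ψ := by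
  ext γ
  rfl

theorem pushHom_smul_complex {Γ Γ' : Type*} [Group Γ] [Group Γ'] (j : Γ' →* Γ) (c : ℂ)
    (ψ : Additive Γ' →+ ℂ) : pushHom j ℂ (c • ψ) = c • pushHom j ℂ ψ := by
  rw [smul_eq_mulLeft_comp, pushHom_comp, ← smul_eq_mulLeft_comp]

/-! ### Eigenvectors away from `q` -/

/-- The joint eigenspace of the `T_ℓ`, `ℓ ∤ N q`, at level `N`, with eigenvalues `lam ℓ`. -/
def tEigenAway (N q : ℕ) (lam : ℕ → ℂ) : Submodule ℂ (CuspForm (Gamma0 N) 2) where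
  carrier := {v | ∀ (ℓ : ℕ) (hℓ : ℓ.Prime) (hℓN : ¬ ℓ ∣ N), ¬ ℓ ∣ N * q →
    CuspForm.heckeTLin 2 hℓ hℓN v = lam ℓ • v}
  add_mem' := by
    intro a b ha hb ℓ hℓ hℓN hℓNq
    rw [map_add, ha ℓ hℓ hℓN hℓNq, hb ℓ hℓ hℓN hℓNq, smul_add]
  zero_mem' := by
    intro ℓ hℓ hℓN hℓNq
    rw [map_zero, smul_zero]
  smul_mem' := by
    intro c a ha ℓ hℓ hℓN hℓNq
    rw [map_smul, ha ℓ hℓ hℓN hℓNq, smul_comm]

theorem mem_tEigenAway {N q : ℕ} {lam : ℕ → ℂ} {v : CuspForm (Gamma0 N) 2} :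
    v ∈ tEigenAway N q lam ↔ ∀ (ℓ : ℕ) (hℓ : ℓ.Prime) (hℓN : ¬ ℓ ∣ N), ¬ ℓ ∣ N * q →
      CuspForm.heckeTLin 2 hℓ hℓN v = lam ℓ • v := Iff.rfl

theorem not_dvd_mul_of_ne {N q ℓ : ℕ} (hq : q.Prime) (hℓ : ℓ.Prime) (hℓN : ¬ ℓ ∣ N)
    (hℓq : ℓ ≠ q) : ¬ ℓ ∣ N * q := by
  intro h
  rcases (Nat.Prime.dvd_mul hℓ).1 h with h | h
  · exact hℓN h
  · exact hℓq ((Nat.prime_dvd_prime_iff_eq hℓ hq).1 h)

/-- A nonzero joint eigenvector of the `T_ℓ`, `ℓ ∤ N q`, at level `N` yields a normalised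
eigenform of level `N` with the same eigenvalues away from `N q`. -/
theorem exists_eigenform_of_eigenvector_away (N q : ℕ) [NeZero N] (hq : q.Prime) (lam : ℕ → ℂ)
    (f : CuspForm (Gamma0 N) 2) (hf : f ≠ 0) (hlam : f ∈ tEigenAway N q lam) :
    ∃ F : CuspForm (Gamma0 N) 2, F.IsNormalizedEigenform ∧
      ∀ ℓ : ℕ, ℓ.Prime → ¬ ℓ ∣ N * q → ModularFormClass.qCoeff F ℓ = lam ℓ := by
  classical
  by_cases hqN : q ∣ N
  · have key : ∀ ℓ : ℕ, ℓ.Prime → ¬ ℓ ∣ N → ¬ ℓ ∣ N * q := by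
      intro ℓ hℓ hℓN
      refine not_dvd_mul_of_ne hq hℓ hℓN ?_
      rintro rfl
      exact hℓN hqN
    obtain ⟨F, hF, hFc⟩ := Fermat.Agent.H74.exists_isNormalizedEigenform_of_eigenvector lam f hf
      (fun ℓ hℓ hℓN => hlam ℓ hℓ hℓN (key ℓ hℓ hℓN))
    exact ⟨F, hF, fun ℓ hℓ hℓNq => hFc ℓ hℓ (fun h => hℓNq (dvd_mul_of_dvd_left h q))⟩
  · haveI := Fermat.Agent.H74.finiteDimensional_cuspForm_Gamma0 N 2
    have hW : tEigenAway N q lam ≠ ⊥ := by
      rw [Submodule.ne_bot_iff]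
      exact ⟨f, hlam, hf⟩
    have hTW : ∀ v ∈ tEigenAway N q lam,
        CuspForm.heckeTLin 2 hq hqN v ∈ tEigenAway N q lam := by
      intro v hv ℓ hℓ hℓN hℓNq
      have hc := (CuspForm.heckeTLin_comm 2 hℓ hℓN hq hqN).eq
      have := congrArg (fun T : Module.End ℂ (CuspForm (Gamma0 N) 2) => T v) hc
      simp only [Module.End.mul_apply] at this
      rw [this, hv ℓ hℓ hℓN hℓNq, map_smul]
    obtain ⟨μ, v, hvW, hv0, hv⟩ :=
      Fermat.Agent.H74.exists_eigenvector_mem (CuspForm.heckeTLin 2 hq hqN)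
        (tEigenAway N q lam) hW hTW
    obtain ⟨F, hF, hFc⟩ := Fermat.Agent.H74.exists_isNormalizedEigenform_of_eigenvector
      (fun ℓ => if ℓ = q then μ else lam ℓ) v hv0 (by
        intro ℓ hℓ hℓN
        by_cases hℓq : ℓ = q
        · subst hℓq
          rw [if_pos rfl]
          exact hv
        · rw [if_neg hℓq]
          exact hvW ℓ hℓ hℓN (not_dvd_mul_of_ne hq hℓ hℓN hℓq))
    refine ⟨F, hF, fun ℓ hℓ hℓNq => ?_⟩
    have hℓq : ℓ ≠ q := by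
      rintro rfl
      exact hℓNq (dvd_mul_left ℓ N)
    have := hFc ℓ hℓ (fun h => hℓNq (dvd_mul_of_dvd_left h q))
    rw [this, if_neg hℓq]

/-! ### The transfer of the period class of a newform vanishes -/

/-- One degeneracy homomorphism `j : Γ₀(N q) → Γ₀(N)` whose transfer preserves parabolic classes
and commutes with the `T_ℓ`, `ℓ ∤ N q`: the transfer of the period class of a newform of level
`N q` vanishes. -/
theorem pushHom_periodHomPair_newform (N q : ℕ) [NeZero N] [NeZero (N * q)] (hq : q.Prime)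
    (g : CuspForm (Gamma0 (N * q)) 2) (hg : g.IsNewform)
    (j : ↥(Gamma0 (N * q)) →* ↥(Gamma0 N))
    (hpar : ∀ ψ : Additive ↥(Gamma0 (N * q)) →+ ℂ, IsParabolicHom (Gamma0 (N * q)) ψ →
      IsParabolicHom (Gamma0 N) (pushHom j ℂ ψ))
    (hcoh : ∀ (ℓ : ℕ) (hℓ : ℓ.Prime) (hℓN : ¬ ℓ ∣ N) (hℓNq : ¬ ℓ ∣ N * q)
      (ψ : Additive ↥(Gamma0 (N * q)) →+ ℂ),
      pushHom j ℂ (Fermat.Agent.H21.cohT (N * q) ℓ hℓ hℓNq ℂ ψ)
        = Fermat.Agent.H21.cohT N ℓ hℓ hℓN ℂ (pushHom j ℂ ψ)) :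
    pushHom j ℂ (periodHomPair (N * q) (g, g)) = 0 := by
  have hωpar : IsParabolicHom (Gamma0 (N * q)) (periodHomPair (N * q) (g, g)) :=
    Fermat.Agent.H97.periodHomPair_mem_parabolicHoms (N * q) (g, g)
  have hψpar := hpar _ hωpar
  obtain ⟨f, f', hff'⟩ := Fermat.Agent.H21.EsC.exists_periodHomPair_eq N _ hψpar
  have hinj := (Fermat.Agent.H21.EsC.eichlerShimura N).1
  have heig : ∀ (ℓ : ℕ) (hℓ : ℓ.Prime) (hℓN : ¬ ℓ ∣ N), ¬ ℓ ∣ N * q →
      CuspForm.heckeTLin 2 hℓ hℓN f = ModularFormClass.qCoeff g ℓ • f ∧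
      CuspForm.heckeTLin 2 hℓ hℓN f' = ModularFormClass.qCoeff g ℓ • f' := by
    intro ℓ hℓ hℓN hℓNq
    have e1 : Fermat.Agent.H21.cohT (N * q) ℓ hℓ hℓNq ℂ (periodHomPair (N * q) (g, g))
        = ModularFormClass.qCoeff g ℓ • periodHomPair (N * q) (g, g) := by
      rw [← Fermat.Agent.H21.EsC.periodHomPair_cohT,
        (Fermat.Agent.H50.eigenformHecke (N * q) g hg.1 ℓ hℓ hℓNq).1, ← Prod.smul_mk,
        map_smul]
    have e2 : Fermat.Agent.H21.cohT N ℓ hℓ hℓN ℂ (periodHomPair N (f, f'))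
        = ModularFormClass.qCoeff g ℓ • periodHomPair N (f, f') := by
      rw [hff', ← hcoh ℓ hℓ hℓN hℓNq, e1, pushHom_smul_complex]
    have e3 : periodHomPair N (CuspForm.heckeTLin 2 hℓ hℓN f, CuspForm.heckeTLin 2 hℓ hℓN f')
        = periodHomPair N (ModularFormClass.qCoeff g ℓ • f, ModularFormClass.qCoeff g ℓ • f') := by
      rw [Fermat.Agent.H21.EsC.periodHomPair_cohT, e2, ← Prod.smul_mk, map_smul]
    have e4 := hinj e3
    exact ⟨congrArg Prod.fst e4, congrArg Prod.snd e4⟩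
  have hNne : N ≠ N * q := by
    intro h
    have h1 : N * 1 = N * q := by rw [mul_one]; exact h
    have h2 := Nat.eq_of_mul_eq_mul_left (Nat.pos_of_ne_zero (NeZero.ne N)) h1
    exact hq.one_lt.ne h2
  have hzero : ∀ F : CuspForm (Gamma0 N) 2,
      (∀ (ℓ : ℕ) (hℓ : ℓ.Prime) (hℓN : ¬ ℓ ∣ N), ¬ ℓ ∣ N * q →
        CuspForm.heckeTLin 2 hℓ hℓN F = ModularFormClass.qCoeff g ℓ • F) → F = 0 := by
    intro F hF
    by_contra hF0
    obtain ⟨G, hG, hGc⟩ := exists_eigenform_of_eigenvector_away N q hq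
      (fun ℓ => ModularFormClass.qCoeff g ℓ) F hF0 hF
    exact hg.2 N (dvd_mul_right N q) hNne ⟨G, hG, fun ℓ hℓ hℓNq => hGc ℓ hℓ hℓNq⟩
  have hf0 : f = 0 := hzero f (fun ℓ hℓ hℓN hℓNq => (heig ℓ hℓ hℓN hℓNq).1)
  have hf'0 : f' = 0 := hzero f' (fun ℓ hℓ hℓN hℓNq => (heig ℓ hℓ hℓN hℓNq).2)
  rw [← hff', hf0, hf'0, Prod.mk_zero_zero, map_zero]

/-- **(J3) PER-NEW**: the period class of a newform is new. -/
theorem periodNew (h1 : PushParabolicStatement) (h2 : PushCohTStatement) :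
    PeriodNewStatement := by
  intro M _ g hg N q hq h
  subst h
  haveI : NeZero N := ⟨fun h0 => NeZero.ne (N * q) (by rw [h0, zero_mul])⟩
  rw [castH_rfl]
  constructor
  · exact pushHom_periodHomPair_newform N q hq g hg (incl N q)
      (fun ψ hψ => (h1 N q hq ℂ ψ hψ).1)
      (fun ℓ hℓ hℓN hℓNq ψ => (h2 N q hq ℓ hℓ hℓN hℓNq ℂ ψ).1)
  · exact pushHom_periodHomPair_newform N q hq g hg (conjD N q)
      (fun ψ hψ => (h1 N q hq ℂ ψ hψ).2)
      (fun ℓ hℓ hℓN hℓNq ψ => (h2 N q hq ℓ hℓ hℓN hℓNq ℂ ψ).2)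

end Fermat.Agent.H34.SS2J

end
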