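/-
helper34: P-SS2 row 1054 (SS2-J3 PER-NEW), UNCONDITIONAL form: the period class of a newform is
new, from helper51's (J1) `pushParabolic` and helper85's (J2) `pushCohT`.
-/
import Fermat.Agent.H34.SS2J.PeriodNew
import Fermat.Agent.H51.SS2.PushPar
import Fermat.Agent.H85.J2.PushCohT

set_option autoImplicit false

namespace Fermat.Agent.H34.SS2J

/-- **(J3) PER-NEW**, unconditional: the period class of a newform is new. -/
theorem periodNewFinal : Fermat.Agent.H52.SS.PeriodNewStatement :=
  periodNew Fermat.Agent.H51.SS2.pushParabolic Fermat.Agent.H85.J2.pushCohT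

end Fermat.Agent.H34.SS2J
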